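/-
GATE-F / node GF-D4 (helper23): **Deligne–Serre lifting from ONE integral form**.

`f ∈ S₂(Γ₀(M))` has `q`-expansion coefficients `ι (b n)` in (the image of) a ring `R ↪ ℂ`, and the
reduction `red ∘ b` of its `q`-expansion along `red : R → k` (`k` a field with `p = 0`) is a
NONZERO eigenvector of the formal Hecke operators `T_l` at the good primes `l`, with integer
eigenvalues `a l`:   `b̄ (n l) + [l ∣ n] l b̄ (n / l) = a_l b̄ n`.

Then there is a normalised eigenform `g` of level `M` and a maximal ideal `𝔪'` of `ℤ̄ ⊂ ℂ` over `p`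
with `a_l(g) ≡ a l (mod 𝔪')` at every good `l`.   Corollary: `IsResiduallyModularOfLevel`.

Proof: induction over the polynomial ring `T = ℤ[X_l : l good]` (the `q`-expansion of `P · f` has
coefficients in `ι R` and reduces to `ψ̄(P) b̄`), faithfulness of the Betti lattice
(`GJ/J2/Lattice.heckeEvalForms_eq_zero_of_evLat_eq_zero`) and the lying-over form of the
lattice-to-eigenform brick (`GM/End/LyingOver.exists_eigenform_of_comap_annSet_le`).
No integral structure on the space of forms, no saturation.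
-/
import Fermat.Agent.GM.End.LyingOver
import Fermat.Prelude.Def_FLTPrelim_ModularRep

set_option autoImplicit false
set_option linter.unusedSectionVars false

open scoped MatrixGroups
open CongruenceSubgroup ModularCurve ModularCurve.Period CuspForm ModularFormClass

namespace Fermat.Agent.GF.D4

open Fermat.Agent.GJ.J2.Lat Fermat.Agent.GM.End

variable (M : ℕ) [NeZero M]

/-- the ring of good Hecke operators -/
abbrev GoodAlg (good : Nat.Primes → Prop) : Type := MvPolynomial {l : Nat.Primes // good l} ℤ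

/-- `GoodAlg good → HeckeAlg` -/
noncomputable def goodHom (good : Nat.Primes → Prop) : GoodAlg good →+* HeckeAlg :=
  (MvPolynomial.rename (Subtype.val : {l : Nat.Primes // good l} → Nat.Primes) :
    GoodAlg good →ₐ[ℤ] HeckeAlg).toRingHom

theorem goodHom_X (good : Nat.Primes → Prop) (l : {l : Nat.Primes // good l}) :
    goodHom good (MvPolynomial.X l) = heckeGen l.1 :=
  MvPolynomial.rename_X _ _

theorem goodHom_C (good : Nat.Primes → Prop) (c : ℤ) :
    goodHom good (MvPolynomial.C c) = MvPolynomial.C c :=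
  MvPolynomial.rename_C _ _

/-- the mod-`p` eigencharacter `X_l ↦ a l` -/
noncomputable def barHom (good : Nat.Primes → Prop) (a : Nat.Primes → ℤ) (k : Type*) [Field k] :
    GoodAlg good →+* k :=
  MvPolynomial.eval₂Hom (Int.castRingHom k) fun l => ((a l.1 : ℤ) : k)

theorem barHom_X (good : Nat.Primes → Prop) (a : Nat.Primes → ℤ) (k : Type*) [Field k]
    (l : {l : Nat.Primes // good l}) : barHom good a k (MvPolynomial.X l) = ((a l.1 : ℤ) : k) :=
  MvPolynomial.eval₂Hom_X' _ _ _

theorem barHom_C (good : Nat.Primes → Prop) (a : Nat.Primes → ℤ) (k : Type*) [Field k] (c : ℤ) :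
    barHom good a k (MvPolynomial.C c) = (c : k) :=
  MvPolynomial.eval₂Hom_C _ _ _

/-- the action of a Hecke polynomial vanishing on the whole Betti lattice is zero on forms -/
theorem actF_eq_zero_of_mem_annSet_univ {P : HeckeAlg} (hP : P ∈ annSet M Set.univ) :
    actF M P = 0 := by
  have h1 : evLat M P = 0 := by
    apply Subtype.ext
    refine LinearMap.ext fun x => ?_
    have := hP x (Set.mem_univ x)
    rw [← actLHom_apply] at this
    exact this
  rw [actF_apply, heckeEvalForms_eq_zero_of_evLat_eq_zero M P h1]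
  rfl

section Main

variable {M}

/-- the zero form has zero `q`-expansion -/
theorem qCoeff_zero_form (n : ℕ) : qCoeff (0 : CuspForm (Gamma0 M) 2) n = 0 := by
  have h := Fermat.Agent.S49_helper65.qCoeff_smul_cusp (0 : ℂ) (0 : CuspForm (Gamma0 M) 2) n
  rw [zero_smul, zero_mul] at h
  exact h

variable {p : ℕ} {good : Nat.Primes → Prop} {a : Nat.Primes → ℤ}
  {k : Type*} [Field k] {R : Type*} [CommRing R] (ι : R →+* ℂ) (red : R →+* k)
  (f : CuspForm (Gamma0 M) 2) (b : ℕ → R)

/-- **The induction**: the `q`-expansion of `P · f` stays in `ι R` and reduces to `ψ̄(P) · b̄`. -/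
theorem exists_coeff_of_goodAlg (hb : ∀ n, qCoeff f n = ι (b n))
    (hgoodM : ∀ l, good l → ¬ (l : ℕ) ∣ M)
    (heig : ∀ l, good l → ∀ n : ℕ, red (b (n * l)) +
      (if (l : ℕ) ∣ n then ((l : ℕ) : k) * red (b (n / l)) else 0) = ((a l : ℤ) : k) * red (b n))
    (P : GoodAlg good) :
    ∃ c : ℕ → R, (∀ n, qCoeff (actF M (goodHom good P) f) n = ι (c n)) ∧
      ∀ n, red (c n) = barHom good a k P * red (b n) := by
  induction P using MvPolynomial.induction_on with
  | C z =>
    refine ⟨fun n => (z : R) * b n, fun n => ?_, fun n => ?_⟩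
    · rw [goodHom_C]
      have hC : actF M (MvPolynomial.C z) = (z : Module.End ℂ (CuspForm (Gamma0 M) 2)) := by
        have : (MvPolynomial.C z : HeckeAlg) = (z : HeckeAlg) := by simp
        rw [this, map_intCast]
      rw [hC]
      have : ((z : Module.End ℂ (CuspForm (Gamma0 M) 2)) f) = (z : ℂ) • f := by
        rw [Module.End.intCast_apply, ← Int.cast_smul_eq_zsmul ℂ]
      rw [this, Fermat.Agent.S49_helper65.qCoeff_smul_cusp, hb n, map_mul, map_intCast]
    · rw [map_mul, map_intCast, barHom_C]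
  | add P Q hP hQ =>
    obtain ⟨c, hc1, hc2⟩ := hP
    obtain ⟨d, hd1, hd2⟩ := hQ
    refine ⟨fun n => c n + d n, fun n => ?_, fun n => ?_⟩
    · rw [map_add, map_add, LinearMap.add_apply,
        Fermat.Agent.S49_helper65.qCoeff_add_cusp, hc1 n, hd1 n, map_add]
    · rw [map_add, hc2 n, hd2 n, map_add, add_mul]
  | mul_X P l hP =>
    obtain ⟨c, hc1, hc2⟩ := hP
    have hlM : ¬ ((l.1 : Nat.Primes) : ℕ) ∣ M := hgoodM l.1 l.2
    refine ⟨fun n => c (n * (l.1 : ℕ)) +
      (if ((l.1 : Nat.Primes) : ℕ) ∣ n then (((l.1 : Nat.Primes) : ℕ) : R) * c (n / (l.1 : ℕ)) else 0),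
      fun n => ?_, fun n => ?_⟩
    · rw [map_mul, goodHom_X, mul_comm, map_mul, Module.End.mul_apply]
      have hT : actF M (heckeGen l.1) = CuspForm.heckeTLin 2 l.1.2 hlM := by
        rw [actF_apply, heckeEvalForms_heckeGen_of_not_dvd hlM]
        rfl
      rw [hT, Fermat.Agent.S49_helper65.qCoeff_heckeTLin, hc1, map_add]
      congr 1
      split_ifs with hdvd
      · rw [hc1, map_mul, map_natCast]
      · rw [map_zero]
    · rw [map_add, hc2, map_mul, barHom_X]
      have h2 : red (if ((l.1 : Nat.Primes) : ℕ) ∣ n then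
          (((l.1 : Nat.Primes) : ℕ) : R) * c (n / (l.1 : ℕ)) else 0) =
          barHom good a k P * (if ((l.1 : Nat.Primes) : ℕ) ∣ n then
            (((l.1 : Nat.Primes) : ℕ) : k) * red (b (n / (l.1 : ℕ))) else 0) := by
        split_ifs with hdvd
        · rw [map_mul, map_natCast, hc2]; ring
        · rw [map_zero, mul_zero]
      rw [h2, ← mul_add, heig l.1 l.2 n]
      ring

/-- **Deligne–Serre lifting from one integral form.** -/
theorem exists_eigenform_of_modEigen (hpk : (p : k) = 0) (hι : Function.Injective ι)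
    (hb : ∀ n, qCoeff f n = ι (b n)) (hne : ∃ n, red (b n) ≠ 0)
    (hgoodM : ∀ l, good l → ¬ (l : ℕ) ∣ M)
    (heig : ∀ l, good l → ∀ n : ℕ, red (b (n * l)) +
      (if (l : ℕ) ∣ n then ((l : ℕ) : k) * red (b (n / l)) else 0) = ((a l : ℤ) : k) * red (b n)) :
    ∃ (g : CuspForm (Gamma0 M) 2) (𝔪' : Ideal (integralClosure ℤ ℂ)),
      g.IsNormalizedEigenform ∧ 𝔪'.IsMaximal ∧ (p : integralClosure ℤ ℂ) ∈ 𝔪' ∧
      ∀ l, good l → ∃ c : integralClosure ℤ ℂ, (c : ℂ) = qCoeff g l ∧
        c - ((a l : ℤ) : integralClosure ℤ ℂ) ∈ 𝔪' := by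
  classical
  set 𝔭 : Ideal (GoodAlg good) := RingHom.ker (barHom good a k) with h𝔭
  have : 𝔭.IsPrime := RingHom.ker_isPrime _
  have hann : (annSet M Set.univ).comap (goodHom good) ≤ 𝔭 := by
    intro P hP
    rw [Ideal.mem_comap] at hP
    have h0 := actF_eq_zero_of_mem_annSet_univ M hP
    obtain ⟨c, hc1, hc2⟩ := exists_coeff_of_goodAlg ι red f b hb hgoodM heig P
    obtain ⟨n, hn⟩ := hne
    have hcn : c n = 0 := by
      apply hι
      rw [map_zero, ← hc1 n, h0, LinearMap.zero_apply]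
      exact qCoeff_zero_form n
    have := hc2 n
    rw [hcn, map_zero] at this
    rw [h𝔭, RingHom.mem_ker]
    rcases mul_eq_zero.mp this.symm with h | h
    · exact h
    · exact absurd h hn
  obtain ⟨g, θ, 𝔪', hg, h𝔪', hle, hθ, -⟩ :=
    exists_eigenform_of_comap_annSet_le M (goodHom good) Set.univ 𝔭 hann
  have hC : ∀ n : ℤ, θ (MvPolynomial.C n) = (n : integralClosure ℤ ℂ) := fun n =>
    RingHom.congr_fun (RingHom.ext_int (θ.comp MvPolynomial.C)
      (Int.castRingHom (integralClosure ℤ ℂ))) n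
  refine ⟨g, 𝔪', hg, h𝔪', ?_, ?_⟩
  · have hmem : (MvPolynomial.C (p : ℤ) : GoodAlg good) ∈ 𝔭 := by
      rw [h𝔭, RingHom.mem_ker, barHom_C]
      exact_mod_cast hpk
    have h1 := hle hmem
    rw [Ideal.mem_comap, RingHom.comp_apply, goodHom_C, hC] at h1
    exact_mod_cast h1
  · intro l hl
    have hmem : (MvPolynomial.X ⟨l, hl⟩ - MvPolynomial.C (a l) : GoodAlg good) ∈ 𝔭 := by
      rw [h𝔭, RingHom.mem_ker, map_sub, barHom_X, barHom_C, sub_self]
    have h1 := hle hmem
    rw [Ideal.mem_comap, RingHom.comp_apply, map_sub, goodHom_X, goodHom_C, map_sub, hC] at h1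
    exact ⟨θ (heckeGen l), hθ l, h1⟩

/-- **GF-D4**: the frozen `IsResiduallyModularOfLevel` from one integral form whose reduced
`q`-expansion is a nonzero eigenvector of the formal `T_ℓ` at the good primes, with the eigenvalues
`a_ℓ(W)`. -/
theorem isResiduallyModularOfLevel_of_modEigen (W : WeierstrassCurve ℤ) (hpk : (p : k) = 0)
    (hι : Function.Injective ι) (hb : ∀ n, qCoeff f n = ι (b n)) (hne : ∃ n, red (b n) ≠ 0)
    (heig : ∀ ℓ : ℕ, ℓ.Prime → W.IsGoodPrimeFor ℓ → ¬ ℓ ∣ M → ℓ ≠ p → ∀ n : ℕ,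
      red (b (n * ℓ)) + (if ℓ ∣ n then (ℓ : k) * red (b (n / ℓ)) else 0) =
        ((W.apOfModel ℓ : ℤ) : k) * red (b n)) :
    W.IsResiduallyModularOfLevel p M := by
  obtain ⟨g, 𝔪', hg, h𝔪', hp𝔪, hcong⟩ :=
    exists_eigenform_of_modEigen (p := p)
      (good := fun l : Nat.Primes => W.IsGoodPrimeFor l ∧ ¬ (l : ℕ) ∣ M ∧ (l : ℕ) ≠ p)
      (a := fun l : Nat.Primes => W.apOfModel l) ι red f b hpk hι hb hne
      (fun l hl => hl.2.1)
      (fun l hl n => heig l l.2 hl.1 hl.2.1 hl.2.2 n)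
  refine ⟨g, 𝔪', hg, h𝔪', hp𝔪, ?_⟩
  intro ℓ hℓ hgood hℓM hℓp
  exact hcong ⟨ℓ, hℓ⟩ ⟨hgood, hℓM, hℓp⟩

end Main

end Fermat.Agent.GF.D4
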